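import Mathlib

/-!
# Euler products over the nonzero ideals of a Dedekind domain (helper163, S14 density block)

Trick: code nonzero ideals injectively and multiplicatively into `ℕ` (prime ideals go to distinct
prime numbers) and use Mathlib's Euler product for completely multiplicative functions on `ℕ`.
-/

set_option autoImplicit false
set_option linter.unusedSectionVars false

namespace Fermat.Agent.S14.H163

open UniqueFactorizationMonoid IsDedekindDomain

section Coding

variable {R : Type*} [CommRing R] [IsDedekindDomain R]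

/-- The multiplicative code of an ideal: product of the codes of its prime factors. -/
noncomputable def code (c : Ideal R → ℕ) (I : Ideal R) : ℕ :=
  ((normalizedFactors I).map c).prod

variable {c : Ideal R → ℕ}

theorem code_ne_zero (hc : ∀ I, (c I).Prime) (I : Ideal R) : code c I ≠ 0 := by
  unfold code
  rw [Ne, Multiset.prod_eq_zero_iff]
  intro h
  obtain ⟨J, -, hJ⟩ := Multiset.mem_map.mp h
  exact (hc J).ne_zero hJ

theorem code_mul {I J : Ideal R} (hI : I ≠ ⊥) (hJ : J ≠ ⊥) :
    code c (I * J) = code c I * code c J := by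
  unfold code
  rw [normalizedFactors_mul (by simpa using hI) (by simpa using hJ), Multiset.map_add,
    Multiset.prod_add]

theorem code_one : code c (1 : Ideal R) = 1 := by
  unfold code
  rw [normalizedFactors_one]
  simp

theorem code_prime {P : Ideal R} (hP : Prime P) : code c P = c P := by
  unfold code
  rw [normalizedFactors_irreducible hP.irreducible, normalize_eq]
  simp

theorem code_multiset_prod {s : Multiset (Ideal R)} (hs : ∀ P ∈ s, Prime P) :
    code c s.prod = (s.map c).prod := by
  unfold code
  rw [normalizedFactors_prod_of_prime hs]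

theorem code_injective (hinj : Function.Injective c) (hc : ∀ I, (c I).Prime)
    {I J : Ideal R} (hI : I ≠ ⊥) (hJ : J ≠ ⊥) (h : code c I = code c J) : I = J := by
  unfold code at h
  have h1 : ∀ p ∈ (normalizedFactors I).map c, Prime p := by
    intro p hp
    obtain ⟨P, -, rfl⟩ := Multiset.mem_map.mp hp
    exact (hc P).prime
  have h2 : ∀ p ∈ (normalizedFactors J).map c, Prime p := by
    intro p hp
    obtain ⟨P, -, rfl⟩ := Multiset.mem_map.mp hp
    exact (hc P).prime
  have h3 := congrArg normalizedFactors h
  rw [normalizedFactors_prod_of_prime h1, normalizedFactors_prod_of_prime h2] at h3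
  have h4 := Multiset.map_injective hinj h3
  have h5 := prod_normalizedFactors (a := I) (by simpa using hI)
  have h6 := prod_normalizedFactors (a := J) (by simpa using hJ)
  rw [associated_iff_eq] at h5 h6
  rw [← h5, ← h6, h4]

end Coding

section NatExt

variable {𝔽 : Type*} [NormedField 𝔽]

/-- The completely multiplicative extension to `ℕ` of a function given on primes. -/
noncomputable def natExt (g : ℕ → 𝔽) : ℕ →*₀ 𝔽 where
  toFun n := if n = 0 then 0 else n.factorization.prod (fun p e => g p ^ e)
  map_zero' := by simp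
  map_one' := by simp
  map_mul' m n := by
    by_cases hm : m = 0
    · simp [hm]
    by_cases hn : n = 0
    · simp [hn]
    have hmn : m * n ≠ 0 := mul_ne_zero hm hn
    simp only [hm, hn, hmn, if_false]
    rw [Nat.factorization_mul hm hn]
    exact Finsupp.prod_add_index' (fun _ => pow_zero _) (fun _ _ _ => pow_add _ _ _)

theorem natExt_prime (g : ℕ → 𝔽) {p : ℕ} (hp : p.Prime) : natExt g p = g p := by
  change (if p = 0 then 0 else p.factorization.prod (fun p e => g p ^ e)) = g p
  rw [if_neg hp.ne_zero, hp.factorization,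
    Finsupp.prod_single_index (h := fun p e => g p ^ e) (pow_zero _), pow_one]

theorem natExt_apply_ne_zero (g : ℕ → 𝔽) {n : ℕ} (hn : n ≠ 0) :
    natExt g n = n.factorization.prod (fun p e => g p ^ e) := by
  change (if n = 0 then 0 else n.factorization.prod (fun p e => g p ^ e)) = _
  rw [if_neg hn]

theorem natExt_ne_zero_imp (g : ℕ → 𝔽) {n : ℕ} (h : natExt g n ≠ 0) :
    n ≠ 0 ∧ ∀ p ∈ n.primeFactorsList, g p ≠ 0 := by
  have hn : n ≠ 0 := by
    rintro rfl
    exact h (map_zero _)
  refine ⟨hn, fun p hp hgp => h ?_⟩
  rw [natExt_apply_ne_zero g hn, Finsupp.prod]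
  apply Finset.prod_eq_zero (i := p)
  · rw [Nat.support_factorization]
    exact Nat.mem_primeFactors_iff_mem_primeFactorsList.mpr hp
  · rw [hgp, zero_pow]
    have : p ∈ n.factorization.support := by
      rw [Nat.support_factorization]
      exact Nat.mem_primeFactors_iff_mem_primeFactorsList.mpr hp
    exact Finsupp.mem_support_iff.mp this

end NatExt

section Transport

open scoped nonZeroDivisors

variable {R : Type*} [CommRing R] [IsDedekindDomain R]
variable {𝔽 : Type*} [NormedField 𝔽]

/-- A height one prime as a nonzero ideal. -/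
noncomputable def toI0 (v : HeightOneSpectrum R) : (Ideal R)⁰ :=
  ⟨v.asIdeal, mem_nonZeroDivisors_of_ne_zero v.ne_bot⟩

@[simp] theorem toI0_coe (v : HeightOneSpectrum R) : ((toI0 v : (Ideal R)⁰) : Ideal R) = v.asIdeal :=
  rfl

variable (c : Ideal R → ℕ) (F : (Ideal R)⁰ →* 𝔽)

open Classical in
/-- Extension by zero of `F` to all ideals. -/
noncomputable def ext0 (I : Ideal R) : 𝔽 := if h : I ∈ (Ideal R)⁰ then F ⟨I, h⟩ else 0

theorem ext0_coe (I : (Ideal R)⁰) : ext0 F (I : Ideal R) = F I := by
  unfold ext0
  rw [dif_pos I.2]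

theorem ext0_mul {I J : Ideal R} (hI : I ≠ ⊥) (hJ : J ≠ ⊥) :
    ext0 F (I * J) = ext0 F I * ext0 F J := by
  have hI' : I ∈ (Ideal R)⁰ := mem_nonZeroDivisors_of_ne_zero hI
  have hJ' : J ∈ (Ideal R)⁰ := mem_nonZeroDivisors_of_ne_zero hJ
  have h1 := ext0_coe F (⟨I, hI'⟩ * ⟨J, hJ'⟩)
  have h2 := ext0_coe F ⟨I, hI'⟩
  have h3 := ext0_coe F ⟨J, hJ'⟩
  simp only [Submonoid.coe_mul] at h1 h2 h3
  rw [h1, h2, h3, map_mul]

theorem ext0_one : ext0 F (1 : Ideal R) = 1 := by
  have h1 := ext0_coe F (1 : (Ideal R)⁰)
  simpa using h1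

theorem ext0_multiset_prod {s : Multiset (Ideal R)} (hs : ∀ P ∈ s, Prime P) :
    ext0 F s.prod = (s.map (ext0 F)).prod := by
  induction s using Multiset.induction_on with
  | empty => simpa using ext0_one F
  | cons P s ih =>
    have hs' : ∀ Q ∈ s, Prime Q := fun Q hQ => hs Q (Multiset.mem_cons_of_mem hQ)
    have hP : Prime P := hs P (Multiset.mem_cons_self P s)
    have hne : s.prod ≠ ⊥ := by
      rw [← Ideal.zero_eq_bot]
      apply Multiset.prod_ne_zero
      intro h0
      exact (hs' 0 h0).ne_zero rfl
    rw [Multiset.prod_cons, Multiset.map_cons, Multiset.prod_cons,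
      ext0_mul F (by simpa using hP.ne_zero) hne, ih hs']

open Classical in
/-- The value on prime numbers induced by the coding `c`. -/
noncomputable def primeVal (p : ℕ) : 𝔽 :=
  if h : ∃ P : Ideal R, Prime P ∧ c P = p then ext0 F h.choose else 0

variable {c}

theorem primeVal_code (hinj : Function.Injective c) {P : Ideal R} (hP : Prime P) :
    primeVal c F (c P) = ext0 F P := by
  unfold primeVal
  have h : ∃ Q : Ideal R, Prime Q ∧ c Q = c P := ⟨P, hP, rfl⟩
  rw [dif_pos h]
  exact congrArg _ (hinj h.choose_spec.2)

theorem natExt_code (hinj : Function.Injective c) (hc : ∀ I, (c I).Prime)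
    {I : Ideal R} (hI : I ≠ ⊥) : natExt (primeVal c F) (code c I) = ext0 F I := by
  have h5 := prod_normalizedFactors (a := I) (by simpa using hI)
  rw [associated_iff_eq] at h5
  have hpr : ∀ P ∈ normalizedFactors I, Prime P := fun P hP => prime_of_normalized_factor P hP
  conv_rhs => rw [← h5]
  rw [ext0_multiset_prod F hpr]
  unfold code
  rw [map_multiset_prod, Multiset.map_map]
  congr 1
  apply Multiset.map_congr rfl
  intro P hP
  simp only [Function.comp_apply]
  rw [natExt_prime _ (hc P), primeVal_code F hinj (hpr P hP)]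

theorem exists_code_of_natExt_ne_zero {n : ℕ} (h : natExt (primeVal c F) n ≠ 0) :
    ∃ I : Ideal R, I ≠ ⊥ ∧ code c I = n := by
  classical
  obtain ⟨hn, hp⟩ := natExt_ne_zero_imp _ h
  have hex : ∀ p ∈ n.primeFactorsList, ∃ P : Ideal R, Prime P ∧ c P = p := by
    intro p hpm
    by_contra hcon
    apply hp p hpm
    unfold primeVal
    rw [dif_neg hcon]
  let sel : ℕ → Ideal R := fun p =>
    if h : ∃ P : Ideal R, Prime P ∧ c P = p then h.choose else ⊤
  have hsel : ∀ p ∈ n.primeFactorsList, Prime (sel p) ∧ c (sel p) = p := by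
    intro p hpm
    have := hex p hpm
    simp only [sel, dif_pos this]
    exact this.choose_spec
  let s : Multiset (Ideal R) := (n.primeFactorsList : Multiset ℕ).map sel
  have hs : ∀ P ∈ s, Prime P := by
    intro P hP
    obtain ⟨p, hpm, rfl⟩ := Multiset.mem_map.mp hP
    exact (hsel p (by simpa using hpm)).1
  refine ⟨s.prod, ?_, ?_⟩
  · rw [← Ideal.zero_eq_bot]
    apply Multiset.prod_ne_zero
    intro h0
    exact (hs 0 h0).ne_zero rfl
  · rw [code_multiset_prod hs, Multiset.map_map]
    have : Multiset.map (c ∘ sel) (n.primeFactorsList : Multiset ℕ) =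
        (n.primeFactorsList : Multiset ℕ) := by
      conv_rhs => rw [← Multiset.map_id (n.primeFactorsList : Multiset ℕ)]
      apply Multiset.map_congr rfl
      intro p hpm
      exact (hsel p (by simpa using hpm)).2
    rw [this, Multiset.prod_coe, Nat.prod_primeFactorsList hn]

/-- The coding map on nonzero ideals. -/
noncomputable def code0 (c : Ideal R → ℕ) (I : (Ideal R)⁰) : ℕ := code c (I : Ideal R)

theorem code0_injective (hinj : Function.Injective c) (hc : ∀ I, (c I).Prime) :
    Function.Injective (code0 c) := by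
  intro I J h
  apply Subtype.ext
  exact code_injective hinj hc (nonZeroDivisors.ne_zero I.2) (nonZeroDivisors.ne_zero J.2) h

theorem natExt_code0 (hinj : Function.Injective c) (hc : ∀ I, (c I).Prime) (I : (Ideal R)⁰) :
    natExt (primeVal c F) (code0 c I) = F I := by
  unfold code0
  rw [natExt_code F hinj hc (nonZeroDivisors.ne_zero I.2), ext0_coe]

theorem natExt_eq_zero_of_not_mem_range {n : ℕ} (hn : n ∉ Set.range (code0 (R := R) c)) :
    natExt (primeVal c F) n = 0 := by
  by_contra h
  obtain ⟨I, hI, rfl⟩ := exists_code_of_natExt_ne_zero F h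
  exact hn ⟨⟨I, mem_nonZeroDivisors_of_ne_zero hI⟩, rfl⟩

/-- **Euler product** over the height one primes of a Dedekind domain, for a monoid homomorphism
on nonzero ideals which is absolutely summable, given an injective prime-valued coding of ideals. -/
theorem hasProd_of_coding [CompleteSpace 𝔽] (hinj : Function.Injective c) (hc : ∀ I, (c I).Prime)
    (hsum : Summable (fun I : (Ideal R)⁰ => ‖F I‖)) :
    HasProd (fun v : HeightOneSpectrum R => (1 - F (toI0 v))⁻¹) (∑' I : (Ideal R)⁰, F I) := by
  have hcinj := code0_injective (R := R) hinj hc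
  -- summability on ℕ
  have hsumN : Summable (fun n : ℕ => ‖natExt (primeVal c F) n‖) := by
    rw [← (hcinj.summable_iff (f := fun n : ℕ => ‖natExt (primeVal c F) n‖) ?_)]
    · refine hsum.congr fun I => ?_
      simp only [Function.comp_apply]
      rw [natExt_code0 F hinj hc]
    · intro n hn
      rw [natExt_eq_zero_of_not_mem_range F hn, norm_zero]
  have hEP := EulerProduct.eulerProduct_completely_multiplicative_hasProd hsumN
  -- rewrite the sum
  have hts : (∑' n : ℕ, natExt (primeVal c F) n) = ∑' I : (Ideal R)⁰, F I := by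
    rw [← hcinj.tsum_eq (f := fun n : ℕ => natExt (primeVal c F) n)]
    · exact tsum_congr fun I => natExt_code0 F hinj hc I
    · intro n hn
      by_contra hcon
      exact hn (natExt_eq_zero_of_not_mem_range F hcon)
  rw [hts] at hEP
  -- rewrite the product
  let j : HeightOneSpectrum R → Nat.Primes := fun v => ⟨c v.asIdeal, hc _⟩
  have hj : Function.Injective j := by
    intro v w h
    apply HeightOneSpectrum.ext
    exact hinj (congrArg Subtype.val h)
  have hval : ∀ v : HeightOneSpectrum R,
      natExt (primeVal c F) (j v : ℕ) = F (toI0 v) := by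
    intro v
    change natExt (primeVal c F) (c v.asIdeal) = _
    rw [natExt_prime _ (hc _), primeVal_code F hinj v.prime]
    exact ext0_coe F (toI0 v)
  have hout : ∀ p : Nat.Primes, p ∉ Set.range j →
      (1 - natExt (primeVal c F) (p : ℕ))⁻¹ = 1 := by
    intro p hp
    have : natExt (primeVal c F) (p : ℕ) = 0 := by
      rw [natExt_prime _ p.2]
      unfold primeVal
      rw [dif_neg]
      rintro ⟨P, hP, hPc⟩
      apply hp
      exact ⟨⟨P, Ideal.isPrime_of_prime hP, by simpa using hP.ne_zero⟩, Subtype.ext hPc⟩
    rw [this, sub_zero, inv_one]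
  have := (hj.hasProd_iff (f := fun p : Nat.Primes => (1 - natExt (primeVal c F) (p : ℕ))⁻¹)
    (a := ∑' I : (Ideal R)⁰, F I) hout).mpr hEP
  refine this.congr_fun ?_
  intro v
  simp only [Function.comp_apply]
  rw [hval v]

end Transport

end Fermat.Agent.S14.H163
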