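import Mathlib
import Fermat.Agent.S14.H163.IdealEuler

/-!
# Ideal-indexed Dirichlet series of a number field (helper163, S14 density block)
-/

set_option autoImplicit false
set_option linter.unusedSectionVars false

namespace Fermat.Agent.S14.H163

open NumberField IsDedekindDomain Filter Topology
open scoped nonZeroDivisors

variable (K : Type*) [Field K] [NumberField K]

theorem countable_ideal : Countable (Ideal (𝓞 K)) := by
  have h : (Set.univ : Set (Ideal (𝓞 K))) = ⋃ n : ℕ, {I | Ideal.absNorm I = n} := by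
    ext I
    simp
  have hc : (Set.univ : Set (Ideal (𝓞 K))).Countable := by
    rw [h]
    exact Set.countable_iUnion fun n => (Ideal.finite_setOfPred_absNorm_eq n).countable
  exact Set.countable_univ_iff.mp hc

theorem exists_coding : ∃ c : Ideal (𝓞 K) → ℕ, Function.Injective c ∧ ∀ I, (c I).Prime := by
  haveI := countable_ideal K
  obtain ⟨e, he⟩ := exists_injective_nat (Ideal (𝓞 K))
  refine ⟨fun I => Nat.nth Nat.Prime (e I), ?_, fun I => Nat.prime_nth_prime _⟩
  exact (Nat.nth_injective Nat.infinite_setOfPred_prime).comp he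

variable {K}

/-- **Euler product** for a monoid homomorphism on the nonzero ideals of `𝓞 K` whose norms are
summable. -/
theorem hasProd_ideal {𝔽 : Type*} [NormedField 𝔽] [CompleteSpace 𝔽]
    (F : (Ideal (𝓞 K))⁰ →* 𝔽) (hsum : Summable (fun I : (Ideal (𝓞 K))⁰ => ‖F I‖)) :
    HasProd (fun v : HeightOneSpectrum (𝓞 K) => (1 - F (toI0 v))⁻¹)
      (∑' I : (Ideal (𝓞 K))⁰, F I) := by
  obtain ⟨c, hinj, hc⟩ := exists_coding K
  exact hasProd_of_coding F hinj hc hsum

/-- The norm of a nonzero ideal is a positive natural number. -/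
theorem absNorm_pos (I : (Ideal (𝓞 K))⁰) : 0 < Ideal.absNorm (I : Ideal (𝓞 K)) := by
  rw [Nat.pos_iff_ne_zero, Ne, Ideal.absNorm_eq_zero_iff]
  exact nonZeroDivisors.ne_zero I.2

theorem one_le_absNorm (I : (Ideal (𝓞 K))⁰) : (1 : ℝ) ≤ Ideal.absNorm (I : Ideal (𝓞 K)) := by
  exact_mod_cast absNorm_pos I

/-- `I ↦ N(I)^(-s)` as a monoid hom to `ℝ`. -/
noncomputable def normPow (s : ℝ) : (Ideal (𝓞 K))⁰ →* ℝ where
  toFun I := (Ideal.absNorm (I : Ideal (𝓞 K)) : ℝ) ^ (-s)
  map_one' := by simp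
  map_mul' I J := by
    simp only [Submonoid.coe_mul, map_mul, Nat.cast_mul]
    rw [Real.mul_rpow (Nat.cast_nonneg _) (Nat.cast_nonneg _)]

theorem normPow_apply (s : ℝ) (I : (Ideal (𝓞 K))⁰) :
    normPow s I = (Ideal.absNorm (I : Ideal (𝓞 K)) : ℝ) ^ (-s) := rfl

theorem normPow_pos (s : ℝ) (I : (Ideal (𝓞 K))⁰) : 0 < normPow s I := by
  rw [normPow_apply]
  exact Real.rpow_pos_of_pos (by exact_mod_cast absNorm_pos I) _

theorem normPow_le_one {s : ℝ} (hs : 0 ≤ s) (I : (Ideal (𝓞 K))⁰) : normPow s I ≤ 1 := by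
  rw [normPow_apply]
  exact Real.rpow_le_one_of_one_le_of_nonpos (one_le_absNorm I) (by linarith)

theorem normPow_anti {s t : ℝ} (hst : s ≤ t) (I : (Ideal (𝓞 K))⁰) : normPow t I ≤ normPow s I := by
  rw [normPow_apply, normPow_apply]
  exact Real.rpow_le_rpow_of_exponent_le (one_le_absNorm I) (by linarith)

section Summability

open Ideal in
theorem tendsto_sum_card_div (K : Type*) [Field K] [NumberField K] :
    Tendsto (fun n : ℕ => (∑ k ∈ Finset.Icc 1 n,
      (Nat.card {I : Ideal (𝓞 K) // absNorm I = k} : ℝ)) / (n : ℝ)) atTop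
      (𝓝 (dedekindZeta_residue K)) := by
  refine ((Ideal.tendsto_norm_le_div_atTop₀ K).comp tendsto_natCast_atTop_atTop).congr fun n ↦ ?_
  simp only [Function.comp_apply, Nat.cast_le, ← Nat.cast_sum]
  congr
  rw [← add_left_inj 1, ← card_norm_le_eq_card_norm_le_add_one,
    show Finset.Icc 1 n = Finset.Ioc 0 n from Finset.Icc_succ_left_eq_Ioc _ _,
    show 1 = Nat.card {I : Ideal (𝓞 K) // absNorm I = 0} by simp [Ideal.absNorm_eq_zero_iff],
    Finset.sum_Ioc_add_eq_sum_Icc (n.zero_le),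
    ← Finset.card_preimage_eq_sum_card_image_eq (fun k _ ↦ finite_setOfPred_absNorm_eq k)]
  simp [Set.coe_eq_subtype]

theorem lseriesSummable_card (K : Type*) [Field K] [NumberField K] {s : ℝ} (hs : 1 < s) :
    LSeriesSummable (fun n => (Nat.card {I : Ideal (𝓞 K) // Ideal.absNorm I = n} : ℂ)) (s : ℂ) := by
  have := LSeriesSummable_of_sum_norm_bigO_and_nonneg
    (f := fun n => (Nat.card {I : Ideal (𝓞 K) // Ideal.absNorm I = n} : ℝ)) (r := 1) (s := (s : ℂ))
    ?_ (fun _ => Nat.cast_nonneg _) zero_le_one (by simpa using hs)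
  · simpa using this
  · exact Asymptotics.isBigO_atTop_natCast_rpow_of_tendsto_div_rpow (a := dedekindZeta_residue K)
      (by simpa using tendsto_sum_card_div K)

/-- The fibre of the norm on nonzero ideals over `n ≠ 0` is the fibre on all ideals. -/
noncomputable def fiberEquiv (K : Type*) [Field K] [NumberField K] {n : ℕ} (hn : n ≠ 0) :
    {I : (Ideal (𝓞 K))⁰ // Ideal.absNorm (I : Ideal (𝓞 K)) = n} ≃
      {I : Ideal (𝓞 K) // Ideal.absNorm I = n} where
  toFun I := ⟨I.1.1, I.2⟩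
  invFun I := ⟨⟨I.1, mem_nonZeroDivisors_of_ne_zero (by
    intro h
    apply hn
    rw [← I.2, h]
    simp)⟩, I.2⟩
  left_inv I := rfl
  right_inv I := rfl

instance fiber_finite (K : Type*) [Field K] [NumberField K] (n : ℕ) :
    Finite {I : (Ideal (𝓞 K))⁰ // Ideal.absNorm (I : Ideal (𝓞 K)) = n} := by
  have : Finite {I : Ideal (𝓞 K) // Ideal.absNorm I = n} :=
    (Ideal.finite_setOfPred_absNorm_eq n).to_subtype
  refine Finite.of_injective
    (fun I => (⟨I.1.1, I.2⟩ : {I : Ideal (𝓞 K) // Ideal.absNorm I = n})) (fun I J h => ?_)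
  have h' := congrArg Subtype.val h
  exact Subtype.ext (Subtype.ext h')

theorem fiber_empty (K : Type*) [Field K] [NumberField K] :
    IsEmpty {I : (Ideal (𝓞 K))⁰ // Ideal.absNorm (I : Ideal (𝓞 K)) = 0} :=
  ⟨fun I => (absNorm_pos I.1).ne' I.2⟩

theorem tsum_fiber (s : ℝ) (n : ℕ) :
    (∑' I : {I : (Ideal (𝓞 K))⁰ // Ideal.absNorm (I : Ideal (𝓞 K)) = n}, normPow s I.1) =
      (Nat.card {I : (Ideal (𝓞 K))⁰ // Ideal.absNorm (I : Ideal (𝓞 K)) = n} : ℝ) *
        (n : ℝ) ^ (-s) := by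
  have : ∀ I : {I : (Ideal (𝓞 K))⁰ // Ideal.absNorm (I : Ideal (𝓞 K)) = n},
      normPow s I.1 = (n : ℝ) ^ (-s) := fun I => by rw [normPow_apply, I.2]
  simp_rw [this]
  rw [tsum_const, nsmul_eq_mul]

theorem norm_term_card (s : ℝ) (n : ℕ) :
    ‖LSeries.term (fun n => (Nat.card {I : Ideal (𝓞 K) // Ideal.absNorm I = n} : ℂ)) (s : ℂ) n‖ =
      (Nat.card {I : (Ideal (𝓞 K))⁰ // Ideal.absNorm (I : Ideal (𝓞 K)) = n} : ℝ) *
        (n : ℝ) ^ (-s) := by
  rw [LSeries.norm_term_eq]
  by_cases hn : n = 0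
  · subst hn
    haveI := fiber_empty K
    simp
  · rw [if_neg hn, Nat.card_congr (fiberEquiv K hn)]
    simp only [Complex.norm_natCast, Complex.ofReal_re]
    rw [Real.rpow_neg (Nat.cast_nonneg _), div_eq_mul_inv]

/-- `∑ N(I)^(-s)` over nonzero ideals converges for `s > 1`. -/
theorem summable_sigma_normPow {s : ℝ} (hs : 1 < s) :
    Summable (fun p : (Σ n : ℕ, {I : (Ideal (𝓞 K))⁰ // Ideal.absNorm (I : Ideal (𝓞 K)) = n}) =>
      normPow s p.2.1) := by
  refine (summable_sigma_of_nonneg (fun x => (normPow_pos s _).le)).mpr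
    ⟨fun n => Summable.of_finite, ?_⟩
  have h := (lseriesSummable_card K hs).norm
  refine h.congr fun n => ?_
  rw [norm_term_card s n]
  exact (tsum_fiber s n).symm

theorem summable_normPow {s : ℝ} (hs : 1 < s) :
    Summable (fun I : (Ideal (𝓞 K))⁰ => normPow s I) := by
  rw [← (Equiv.sigmaFiberEquiv
    (fun I : (Ideal (𝓞 K))⁰ => Ideal.absNorm (I : Ideal (𝓞 K)))).summable_iff]
  exact summable_sigma_normPow hs

theorem summable_norm_normPow {s : ℝ} (hs : 1 < s) :
    Summable (fun I : (Ideal (𝓞 K))⁰ => ‖normPow s I‖) :=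
  (summable_normPow hs).norm

/-- The real Dedekind zeta function as a sum over nonzero ideals. -/
noncomputable def zetaR (K : Type*) [Field K] [NumberField K] (s : ℝ) : ℝ :=
  ∑' I : (Ideal (𝓞 K))⁰, normPow s I

theorem dedekindZeta_eq_zetaR {s : ℝ} (hs : 1 < s) :
    dedekindZeta K (s : ℂ) = (zetaR K s : ℂ) := by
  unfold dedekindZeta zetaR LSeries
  have e1 : (∑' I : (Ideal (𝓞 K))⁰, normPow s I) =
      ∑' p : (Σ n : ℕ, {I : (Ideal (𝓞 K))⁰ // Ideal.absNorm (I : Ideal (𝓞 K)) = n}),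
        normPow s p.2.1 :=
    ((Equiv.sigmaFiberEquiv
      (fun I : (Ideal (𝓞 K))⁰ => Ideal.absNorm (I : Ideal (𝓞 K)))).tsum_eq _).symm
  rw [e1, Summable.tsum_sigma' (fun n => Summable.of_finite) (summable_sigma_normPow hs)]
  rw [Complex.ofReal_tsum]
  refine tsum_congr fun n => ?_
  have h1 := tsum_fiber (K := K) s n
  rw [h1]
  by_cases hn : n = 0
  · subst hn
    haveI := fiber_empty K
    simp
  · rw [LSeries.term_of_ne_zero hn, Nat.card_congr (fiberEquiv K hn)]
    rw [Complex.ofReal_mul, Complex.ofReal_natCast, Complex.ofReal_cpow (Nat.cast_nonneg _),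
      Complex.ofReal_natCast, Complex.ofReal_neg, Complex.cpow_neg, div_eq_mul_inv]

theorem zetaR_pos {s : ℝ} (hs : 1 < s) : 0 < zetaR K s :=
  (summable_normPow hs).tsum_pos (fun I => (normPow_pos s I).le) 1 (normPow_pos s 1)

/-- `(s - 1) ζ_K(s) → residue` as `s → 1⁺`, in terms of `zetaR`. -/
theorem tendsto_sub_one_mul_zetaR (K : Type*) [Field K] [NumberField K] :
    Tendsto (fun s : ℝ => (s - 1) * zetaR K s) (𝓝[>] 1) (𝓝 (dedekindZeta_residue K)) := by
  have h := tendsto_sub_one_mul_dedekindZeta_nhdsGT K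
  have h2 : Tendsto (fun s : ℝ => (((s - 1) * zetaR K s : ℝ) : ℂ)) (𝓝[>] 1)
      (𝓝 (dedekindZeta_residue K : ℂ)) := by
    refine h.congr' ?_
    filter_upwards [self_mem_nhdsWithin] with s hs
    rw [dedekindZeta_eq_zetaR (Set.mem_Ioi.mp hs)]
    push_cast
    rfl
  exact (Complex.continuous_re.tendsto _).comp h2 |>.congr (fun s => by simp) |>.mono_right
    (by simp)

end Summability

end Fermat.Agent.S14.H163
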