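import Mathlib
import Fermat.Agent.S14.H163.ZetaIdeal
import Fermat.Agent.S14.H34.Interface

/-!
# S14 density: piece (Z) `ZetaBounds` of helper34's interface (helper163)
-/

set_option autoImplicit false
set_option linter.unusedSectionVars false

namespace Fermat.Agent.S14.H163

open NumberField IsDedekindDomain Filter Topology
open scoped nonZeroDivisors

variable (K : Type*) [Field K] [NumberField K]

theorem zetaI_eq_zetaR (s : ℝ) : H34.zetaI K s = zetaR K s := rfl

theorem primeNZ_eq_toI0 (v : HeightOneSpectrum (𝓞 K)) : H34.primeNZ v = toI0 v := rfl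

theorem pN_eq (s : ℝ) (v : HeightOneSpectrum (𝓞 K)) : H34.pN s v = normPow s (toI0 v) := rfl

/-- Piece (Z): two-sided bound for the zeta function near `1`. -/
theorem zetaBounds : H34.ZetaBounds K := by
  have h := tendsto_sub_one_mul_zetaR K
  have hκ := dedekindZeta_residue_pos K
  set κ := dedekindZeta_residue K with hκdef
  have hev : ∀ᶠ s in 𝓝[>] (1 : ℝ), (s - 1) * zetaR K s ∈ Set.Ioo (κ / 2) (2 * κ) :=
    h.eventually (Ioo_mem_nhds (by linarith) (by linarith))
  rw [eventually_nhdsWithin_iff, Metric.eventually_nhds_iff] at hev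
  obtain ⟨δ, hδ, hδ'⟩ := hev
  refine ⟨κ / 2, 2 * κ, δ, by linarith, hδ, fun s hs1 hs2 => ?_⟩
  have hmem := hδ' (y := s) (by rw [Real.dist_eq, abs_lt]; constructor <;> linarith)
    (Set.mem_Ioi.mpr hs1)
  have hpos : 0 < s - 1 := by linarith
  rw [zetaI_eq_zetaR]
  constructor
  · rw [div_le_iff₀ hpos]
    linarith [hmem.1]
  · rw [le_div_iff₀ hpos]
    linarith [hmem.2]

end Fermat.Agent.S14.H163
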