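import Mathlib
import Fermat.Agent.S14.H163.ZetaBounds

/-!
# S14 density: piece (C) `CharBound` of helper34's interface (helper163)

Primes in the kernel of a class group character of prime order `p` have density at most `1/p`:
`(∏_{v ∈ T} (1 + N v^(-s)))^p ≤ C ζ_K(s)` for finite `T ⊆ {χ(v) = 1}`, given boundedness of
`L(s, χ^k)`, `0 < k < p`, on `(1, 2]`.
-/

set_option autoImplicit false
set_option linter.unusedSectionVars false

namespace Fermat.Agent.S14.H163

open NumberField IsDedekindDomain Filter Topology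
open scoped nonZeroDivisors

/-- Partial products of a real `HasProd` with factors `≥ 1` are bounded by the limit. -/
theorem prod_le_of_hasProd {ι : Type*} {f : ι → ℝ} {a : ℝ} (h : HasProd f a)
    (h1 : ∀ i, 1 ≤ f i) (T : Finset ι) : ∏ i ∈ T, f i ≤ a := by
  classical
  have h' : Tendsto (fun s : Finset ι => ∏ b ∈ s, f b) atTop (𝓝 a) := h
  refine ge_of_tendsto h' ?_
  filter_upwards [eventually_ge_atTop T] with T' hT'
  rw [← Finset.prod_sdiff hT']
  have h2 : (1 : ℝ) ≤ ∏ i ∈ T' \ T, f i := by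
    have := Finset.prod_le_prod (s := T' \ T) (f := fun _ => (1 : ℝ)) (g := f)
      (fun _ _ => zero_le_one) (fun i _ => h1 i)
    simpa using this
  have h3 : 0 ≤ ∏ i ∈ T, f i := Finset.prod_nonneg fun i _ => le_trans zero_le_one (h1 i)
  nlinarith

section Local

/-- The local Euler factor identity for a `p`-th root of unity `ω`, `p` prime. -/
theorem prod_one_sub_pow_mul {p : ℕ} (hp : p.Prime) {ω : ℂ} (hω : ω ^ p = 1) (x : ℂ) :
    ∏ k ∈ Finset.range p, (1 - ω ^ k * x) = if ω = 1 then (1 - x) ^ p else 1 - x ^ p := by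
  classical
  split_ifs with h1
  · subst h1
    simp
  · haveI := Fact.mk hp
    have hord : orderOf ω = p := orderOf_eq_prime hω h1
    have hprim : IsPrimitiveRoot ω p := hord ▸ IsPrimitiveRoot.orderOf ω
    have hset : Polynomial.nthRootsFinset p (1 : ℂ) = (Finset.range p).image (fun k => ω ^ k) := by
      symm
      apply Finset.eq_of_subset_of_card_le
      · intro z hz
        obtain ⟨k, -, rfl⟩ := Finset.mem_image.mp hz
        rw [Polynomial.mem_nthRootsFinset hp.pos]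
        rw [← pow_mul, mul_comm, pow_mul, hω, one_pow]
      · rw [hprim.card_nthRootsFinset, Finset.card_image_of_injOn, Finset.card_range]
        intro i hi j hj hij
        exact hprim.pow_inj (Finset.mem_range.mp hi) (Finset.mem_range.mp hj) hij
    have := hprim.pow_sub_pow_eq_prod_sub_mul (1 : ℂ) x hp.pos
    rw [one_pow, hset, Finset.prod_image] at this
    · exact this.symm
    · intro i hi j hj hij
      exact hprim.pow_inj (Finset.mem_range.mp hi) (Finset.mem_range.mp hj) hij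

/-- The norm of the inverse local factor is `≥ 1`, and is `(1 - x)^(-p)` when `ω = 1`. -/
theorem local_factor {p : ℕ} (hp : p.Prime) {ω : ℂ} (hω : ω ^ p = 1) {x : ℝ} (hx0 : 0 < x)
    (hx1 : x < 1) :
    1 ≤ ‖∏ k ∈ Finset.range p, (1 - ω ^ k * (x : ℂ))⁻¹‖ ∧
      (ω = 1 → (1 + x) ^ p ≤ ‖∏ k ∈ Finset.range p, (1 - ω ^ k * (x : ℂ))⁻¹‖) := by
  rw [Finset.prod_inv_distrib, norm_inv, prod_one_sub_pow_mul hp hω]
  have h1x : 0 < 1 - x := by linarith
  split_ifs with h1
  · have hn : ‖((1 : ℂ) - (x : ℂ)) ^ p‖ = (1 - x) ^ p := by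
      rw [norm_pow, ← Complex.ofReal_one, ← Complex.ofReal_sub, Complex.norm_real,
        Real.norm_of_nonneg h1x.le]
    rw [hn]
    have hpos : 0 < (1 - x) ^ p := pow_pos h1x p
    have hle : (1 - x) ^ p ≤ 1 := pow_le_one₀ h1x.le (by linarith)
    refine ⟨(one_le_inv₀ hpos).mpr hle, fun _ => ?_⟩
    rw [← inv_pow]
    apply pow_le_pow_left₀ (by linarith)
    rw [← one_div, le_div_iff₀ h1x]
    nlinarith
  · have hxp : 0 < x ^ p := pow_pos hx0 p
    have hxp1 : x ^ p < 1 := pow_lt_one₀ hx0.le hx1 hp.ne_zero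
    have hn : ‖(1 : ℂ) - (x : ℂ) ^ p‖ = 1 - x ^ p := by
      rw [← Complex.ofReal_one, ← Complex.ofReal_pow, ← Complex.ofReal_sub, Complex.norm_real,
        Real.norm_of_nonneg (by linarith)]
    rw [hn]
    refine ⟨(one_le_inv₀ (by linarith)).mpr (by linarith), fun h => absurd h h1⟩

end Local

variable {K : Type*} [Field K] [NumberField K]

/-- The monoid hom `I ↦ χ([I]) N(I)^(-s)`. -/
noncomputable def twist (χ : ClassGroup (𝓞 K) →* ℂˣ) (s : ℝ) : (Ideal (𝓞 K))⁰ →* ℂ :=
  ((Units.coeHom ℂ).comp (χ.comp ClassGroup.mk0)) *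
    ((Complex.ofRealHom : ℝ →+* ℂ).toMonoidHom.comp (normPow s))

theorem twist_apply (χ : ClassGroup (𝓞 K) →* ℂˣ) (s : ℝ) (I : (Ideal (𝓞 K))⁰) :
    twist χ s I = (χ (ClassGroup.mk0 I) : ℂ) * ((normPow s I : ℝ) : ℂ) := rfl

theorem norm_char_eq_one {n : ℕ} (hn : n ≠ 0) {χ : ClassGroup (𝓞 K) →* ℂˣ} (hχ : χ ^ n = 1)
    (c : ClassGroup (𝓞 K)) : ‖(χ c : ℂ)‖ = 1 := by
  have h1 : (χ c) ^ n = 1 := by
    have := congrArg (fun ψ : ClassGroup (𝓞 K) →* ℂˣ => ψ c) hχ
    simpa using this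
  have h2 : ((χ c : ℂ)) ^ n = 1 := by
    have := congrArg (fun u : ℂˣ => (u : ℂ)) h1
    simpa using this
  have h3 : ‖(χ c : ℂ)‖ ^ n = 1 := by rw [← norm_pow, h2, norm_one]
  exact (pow_eq_one_iff_of_nonneg (norm_nonneg _) hn).mp h3

theorem norm_twist {n : ℕ} (hn : n ≠ 0) {χ : ClassGroup (𝓞 K) →* ℂˣ} (hχ : χ ^ n = 1) (s : ℝ)
    (I : (Ideal (𝓞 K))⁰) : ‖twist χ s I‖ = normPow s I := by
  rw [twist_apply, norm_mul, norm_char_eq_one hn hχ, one_mul, Complex.norm_real,
    Real.norm_of_nonneg (normPow_pos s I).le]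

theorem lser_eq_tsum_twist (χ : ClassGroup (𝓞 K) →* ℂˣ) (s : ℝ) :
    H34.Lser K χ s = ∑' I : (Ideal (𝓞 K))⁰, twist χ s I := rfl

theorem hasProd_lser {n : ℕ} (hn : n ≠ 0) {χ : ClassGroup (𝓞 K) →* ℂˣ} (hχ : χ ^ n = 1)
    {s : ℝ} (hs : 1 < s) :
    HasProd (fun v : HeightOneSpectrum (𝓞 K) => (1 - twist χ s (toI0 v))⁻¹) (H34.Lser K χ s) := by
  rw [lser_eq_tsum_twist]
  apply hasProd_ideal
  refine (summable_normPow hs).congr fun I => ?_
  rw [norm_twist hn hχ]

theorem lser_one (s : ℝ) : H34.Lser K (1 : ClassGroup (𝓞 K) →* ℂˣ) s = (zetaR K s : ℂ) := by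
  unfold H34.Lser zetaR
  rw [Complex.ofReal_tsum]
  refine tsum_congr fun I => ?_
  simp
  rfl

theorem normPow_prime_lt_one {s : ℝ} (hs : 0 < s) (v : HeightOneSpectrum (𝓞 K)) :
    normPow s (toI0 v) < 1 := by
  rw [normPow_apply]
  have h2 : (1 : ℝ) < (Ideal.absNorm ((toI0 v : (Ideal (𝓞 K))⁰) : Ideal (𝓞 K)) : ℝ) := by
    have h1 : Ideal.absNorm v.asIdeal ≠ 1 := by
      rw [Ne, Ideal.absNorm_eq_one_iff]
      exact v.isPrime.ne_top
    have h0 := absNorm_pos (toI0 v)
    have : 1 < Ideal.absNorm v.asIdeal := by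
      rw [toI0_coe] at h0
      omega
    exact_mod_cast this
  exact Real.rpow_lt_one_of_one_lt_of_neg h2 (by linarith)

/-- Piece (C): primes in the kernel of a character of order `p` have density at most `1/p`. -/
theorem charBound (K : Type*) [Field K] [NumberField K] : H34.CharBound K := by
  intro p hp χ hχp hN1
  classical
  choose! B hB using hN1
  obtain ⟨m, rfl⟩ : ∃ m, p = m + 1 := ⟨p - 1, by have := hp.pos; omega⟩
  refine ⟨∏ k ∈ Finset.range m, (|B (k + 1)| + 1), ?_, fun s hs1 hs2 T hT => ?_⟩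
  · exact Finset.prod_pos fun k _ => by positivity
  have hχk : ∀ k : ℕ, (χ ^ k) ^ (m + 1) = 1 := fun k => by
    ext c
    have h1 := DFunLike.congr_fun hχp c
    simp only [MonoidHom.pow_apply, MonoidHom.one_apply] at h1 ⊢
    rw [← pow_mul, mul_comm, pow_mul, h1, one_pow]
  -- Euler products
  have hprod := hasProd_prod (s := Finset.range (m + 1))
    (f := fun k (v : HeightOneSpectrum (𝓞 K)) => (1 - twist (χ ^ k) s (toI0 v))⁻¹)
    (a := fun k => H34.Lser K (χ ^ k) s)
    (fun k _ => hasProd_lser hp.ne_zero (hχk k) hs1)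
  have hnorm := hprod.norm
  -- local factors
  have hloc : ∀ v : HeightOneSpectrum (𝓞 K),
      (fun k => (1 - twist (χ ^ k) s (toI0 v))⁻¹) =
        fun k => (1 - ((χ (ClassGroup.mk0 (toI0 v)) : ℂˣ) : ℂ) ^ k *
          ((normPow s (toI0 v) : ℝ) : ℂ))⁻¹ := by
    intro v
    funext k
    rw [twist_apply]
    simp
  have hω : ∀ v : HeightOneSpectrum (𝓞 K),
      (((χ (ClassGroup.mk0 (toI0 v)) : ℂˣ) : ℂ)) ^ (m + 1) = 1 := by
    intro v
    have h1 : (χ (ClassGroup.mk0 (toI0 v))) ^ (m + 1) = 1 := by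
      have := congrArg (fun ψ : ClassGroup (𝓞 K) →* ℂˣ => ψ (ClassGroup.mk0 (toI0 v))) hχp
      simpa using this
    have := congrArg (fun u : ℂˣ => (u : ℂ)) h1
    simpa using this
  have hs0 : 0 < s := by linarith
  have hge : ∀ v : HeightOneSpectrum (𝓞 K),
      1 ≤ ‖∏ k ∈ Finset.range (m + 1), (1 - twist (χ ^ k) s (toI0 v))⁻¹‖ := by
    intro v
    rw [hloc v]
    exact (local_factor hp (hω v) (normPow_pos s _) (normPow_prime_lt_one hs0 v)).1
  have hT' : ∀ v ∈ T, (1 + H34.pN s v) ^ (m + 1) ≤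
      ‖∏ k ∈ Finset.range (m + 1), (1 - twist (χ ^ k) s (toI0 v))⁻¹‖ := by
    intro v hv
    rw [hloc v]
    refine (local_factor hp (hω v) (normPow_pos s _) (normPow_prime_lt_one hs0 v)).2 ?_
    have := hT v hv
    rw [primeNZ_eq_toI0] at this
    rw [this]
    simp
  calc (∏ v ∈ T, (1 + H34.pN s v)) ^ (m + 1)
      = ∏ v ∈ T, (1 + H34.pN s v) ^ (m + 1) := (Finset.prod_pow _ _ _).symm
    _ ≤ ∏ v ∈ T, ‖∏ k ∈ Finset.range (m + 1), (1 - twist (χ ^ k) s (toI0 v))⁻¹‖ := by
        apply Finset.prod_le_prod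
        · intro v _
          have : 0 < H34.pN s v := normPow_pos s _
          positivity
        · exact hT'
    _ ≤ ‖∏ k ∈ Finset.range (m + 1), H34.Lser K (χ ^ k) s‖ := prod_le_of_hasProd hnorm hge T
    _ = (∏ k ∈ Finset.range m, ‖H34.Lser K (χ ^ (k + 1)) s‖) * ‖H34.Lser K (χ ^ 0) s‖ := by
        rw [norm_prod, Finset.prod_range_succ']
    _ ≤ (∏ k ∈ Finset.range m, (|B (k + 1)| + 1)) * H34.zetaI K s := by
        have hz : ‖H34.Lser K (χ ^ 0) s‖ = H34.zetaI K s := by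
          rw [pow_zero, lser_one, Complex.norm_real, Real.norm_of_nonneg (zetaR_pos hs1).le]
          rfl
        rw [hz]
        apply mul_le_mul_of_nonneg_right _ (by rw [zetaI_eq_zetaR]; exact (zetaR_pos hs1).le)
        apply Finset.prod_le_prod
        · intro k _
          exact norm_nonneg _
        · intro k hk
          have hk' := Finset.mem_range.mp hk
          have := hB (k + 1) (by omega) (by omega) s hs1 hs2
          have h2 : B (k + 1) ≤ |B (k + 1)| := le_abs_self _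
          linarith

end Fermat.Agent.S14.H163
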