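import Mathlib
import Fermat.Agent.S14.H163.CharBound

/-!
# S14 density: piece (A) `GoodMass` of helper34's interface (helper163)

The primes of degree one outside a finite set carry the mass of the zeta function.
-/

set_option autoImplicit false
set_option linter.unusedSectionVars false

namespace Fermat.Agent.S14.H163

open NumberField IsDedekindDomain Filter Topology
open scoped nonZeroDivisors

variable {K : Type*} [Field K] [NumberField K]

/-- Every nonzero prime of `𝓞 K` contains a rational prime. -/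
theorem exists_prime_mem (v : HeightOneSpectrum (𝓞 K)) :
    ∃ ℓ : ℕ, ℓ.Prime ∧ (ℓ : 𝓞 K) ∈ v.asIdeal := by
  have hN : ((Ideal.absNorm v.asIdeal : ℕ) : 𝓞 K) ∈ v.asIdeal := Ideal.absNorm_mem _
  have hN0 : Ideal.absNorm v.asIdeal ≠ 0 := by
    rw [Ne, Ideal.absNorm_eq_zero_iff]
    exact v.ne_bot
  rw [← Nat.prod_factorization_pow_eq_self hN0, Finsupp.prod, Nat.cast_prod] at hN
  haveI := v.isPrime
  obtain ⟨ℓ, hℓ, hmem⟩ := (Ideal.IsPrime.prod_mem_iff).mp hN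
  rw [Nat.cast_pow] at hmem
  refine ⟨ℓ, ?_, Ideal.IsPrime.mem_of_pow_mem v.isPrime _ hmem⟩
  rw [Nat.support_factorization] at hℓ
  exact Nat.prime_of_mem_primeFactors hℓ

theorem absNorm_span_natCast (ℓ : ℕ) :
    Ideal.absNorm (Ideal.span {(ℓ : 𝓞 K)}) = ℓ ^ Module.finrank ℚ K := by
  rw [Ideal.absNorm_span_singleton]
  have : (ℓ : 𝓞 K) = algebraMap ℤ (𝓞 K) (ℓ : ℤ) := by simp
  rw [this, Algebra.norm_algebraMap, RingOfIntegers.rank]
  simp [Int.natAbs_pow]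

theorem absNorm_eq_pow (v : HeightOneSpectrum (𝓞 K)) {ℓ : ℕ} (hℓ : ℓ.Prime)
    (hmem : (ℓ : 𝓞 K) ∈ v.asIdeal) :
    ∃ j, 1 ≤ j ∧ Ideal.absNorm v.asIdeal = ℓ ^ j := by
  have hle : Ideal.span {(ℓ : 𝓞 K)} ≤ v.asIdeal := (Ideal.span_singleton_le_iff_mem _).mpr hmem
  have hdvd := Ideal.absNorm_dvd_absNorm_of_le hle
  rw [absNorm_span_natCast, Nat.dvd_prime_pow hℓ] at hdvd
  obtain ⟨j, -, hj⟩ := hdvd
  refine ⟨j, ?_, hj⟩
  by_contra h0
  have : j = 0 := by omega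
  rw [this, pow_zero, Ideal.absNorm_eq_one_iff] at hj
  exact v.isPrime.ne_top hj

/-- At most `[K:ℚ]` primes contain a given rational prime. -/
theorem card_le_of_mem (S : Finset (HeightOneSpectrum (𝓞 K))) {ℓ : ℕ} (hℓ : ℓ.Prime)
    (hS : ∀ v ∈ S, (ℓ : 𝓞 K) ∈ v.asIdeal) : S.card ≤ Module.finrank ℚ K := by
  classical
  have hinj : Set.InjOn (fun v : HeightOneSpectrum (𝓞 K) => v.asIdeal) (S : Set _) :=
    fun v _ w _ h => HeightOneSpectrum.ext h
  have hdvd : ∏ P ∈ S.image (fun v => v.asIdeal), P ∣ Ideal.span {(ℓ : 𝓞 K)} := by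
    apply Finset.prod_primes_dvd
    · intro P hP
      obtain ⟨v, -, rfl⟩ := Finset.mem_image.mp hP
      exact v.prime
    · intro P hP
      obtain ⟨v, hv, rfl⟩ := Finset.mem_image.mp hP
      rw [Ideal.dvd_iff_le]
      exact (Ideal.span_singleton_le_iff_mem _).mpr (hS v hv)
  rw [Finset.prod_image hinj] at hdvd
  have h2 := map_dvd Ideal.absNorm hdvd
  rw [absNorm_span_natCast, map_prod] at h2
  have h3 : ℓ ^ S.card ≤ ∏ v ∈ S, Ideal.absNorm v.asIdeal := by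
    rw [← Finset.prod_const]
    apply Finset.prod_le_prod'
    intro v hv
    obtain ⟨j, hj1, hj⟩ := absNorm_eq_pow v hℓ (hS v hv)
    rw [hj]
    calc ℓ = ℓ ^ 1 := (pow_one _).symm
      _ ≤ ℓ ^ j := Nat.pow_le_pow_right hℓ.pos hj1
  have h4 : ∏ v ∈ S, Ideal.absNorm v.asIdeal ≤ ℓ ^ Module.finrank ℚ K :=
    Nat.le_of_dvd (pow_pos hℓ.pos _) h2
  exact (Nat.pow_le_pow_iff_right hℓ.one_lt).mp (h3.trans h4)

theorem two_le_absNorm (v : HeightOneSpectrum (𝓞 K)) : 2 ≤ Ideal.absNorm v.asIdeal := by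
  have h1 : Ideal.absNorm v.asIdeal ≠ 1 := by
    rw [Ne, Ideal.absNorm_eq_one_iff]
    exact v.isPrime.ne_top
  have h0 : Ideal.absNorm v.asIdeal ≠ 0 := by
    rw [Ne, Ideal.absNorm_eq_zero_iff]
    exact v.ne_bot
  omega

theorem normPow_prime_le_inv {s : ℝ} (hs : 1 ≤ s) (v : HeightOneSpectrum (𝓞 K)) :
    normPow s (toI0 v) ≤ ((Ideal.absNorm v.asIdeal : ℝ))⁻¹ := by
  rw [normPow_apply, toI0_coe]
  have h2 : (1 : ℝ) ≤ (Ideal.absNorm v.asIdeal : ℝ) := by
    exact_mod_cast (le_trans (by norm_num) (two_le_absNorm v))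
  calc (Ideal.absNorm v.asIdeal : ℝ) ^ (-s) ≤ (Ideal.absNorm v.asIdeal : ℝ) ^ (-1 : ℝ) :=
        Real.rpow_le_rpow_of_exponent_le h2 (by linarith)
    _ = ((Ideal.absNorm v.asIdeal : ℝ))⁻¹ := Real.rpow_neg_one _

theorem normPow_prime_le_half {s : ℝ} (hs : 1 ≤ s) (v : HeightOneSpectrum (𝓞 K)) :
    normPow s (toI0 v) ≤ 1 / 2 := by
  refine (normPow_prime_le_inv hs v).trans ?_
  have h2 : (2 : ℝ) ≤ (Ideal.absNorm v.asIdeal : ℝ) := by exact_mod_cast two_le_absNorm v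
  rw [one_div]
  exact inv_anti₀ (by norm_num) h2

/-- The primes of degree at least two have bounded mass. -/
theorem sum_deg2_le (T : Finset (HeightOneSpectrum (𝓞 K)))
    (hT : ∀ v ∈ T, ¬ (Ideal.absNorm v.asIdeal).Prime) {s : ℝ} (hs : 1 ≤ s) :
    ∑ v ∈ T, normPow s (toI0 v) ≤
      (Module.finrank ℚ K : ℝ) * ∑' m : ℕ, ((m : ℝ) ^ 2)⁻¹ := by
  classical
  choose ℓ hℓ hmem using fun v : HeightOneSpectrum (𝓞 K) => exists_prime_mem v
  have hsum : Summable (fun m : ℕ => ((m : ℝ) ^ 2)⁻¹) := Real.summable_nat_pow_inv.mpr (by norm_num)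
  have h1 : ∀ v ∈ T, normPow s (toI0 v) ≤ (((ℓ v : ℕ) : ℝ) ^ 2)⁻¹ := by
    intro v hv
    refine (normPow_prime_le_inv hs v).trans ?_
    obtain ⟨j, hj1, hj⟩ := absNorm_eq_pow v (hℓ v) (hmem v)
    have hj2 : 2 ≤ j := by
      by_contra h
      have : j = 1 := by omega
      rw [this, pow_one] at hj
      exact hT v hv (hj ▸ hℓ v)
    have hle : (ℓ v) ^ 2 ≤ Ideal.absNorm v.asIdeal := by
      rw [hj]
      exact Nat.pow_le_pow_right (hℓ v).pos hj2
    have hpos : (0 : ℝ) < ((ℓ v : ℕ) : ℝ) ^ 2 := by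
      have := (hℓ v).pos
      positivity
    apply inv_anti₀ hpos
    exact_mod_cast hle
  calc ∑ v ∈ T, normPow s (toI0 v) ≤ ∑ v ∈ T, (((ℓ v : ℕ) : ℝ) ^ 2)⁻¹ := Finset.sum_le_sum h1
    _ = ∑ b ∈ T.image ℓ, (T.filter (fun v => ℓ v = b)).card • (((b : ℕ) : ℝ) ^ 2)⁻¹ :=
        Finset.sum_comp (fun b : ℕ => (((b : ℕ) : ℝ) ^ 2)⁻¹) ℓ
    _ ≤ ∑ b ∈ T.image ℓ, (Module.finrank ℚ K : ℝ) * (((b : ℕ) : ℝ) ^ 2)⁻¹ := by
        apply Finset.sum_le_sum
        intro b hb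
        rw [nsmul_eq_mul]
        apply mul_le_mul_of_nonneg_right _ (by positivity)
        have hb' : b.Prime := by
          obtain ⟨v, -, rfl⟩ := Finset.mem_image.mp hb
          exact hℓ v
        have := card_le_of_mem (T.filter (fun v => ℓ v = b)) hb' (by
          intro v hv
          have := (Finset.mem_filter.mp hv).2
          rw [← this]
          exact hmem v)
        exact_mod_cast this
    _ = (Module.finrank ℚ K : ℝ) * ∑ b ∈ T.image ℓ, (((b : ℕ) : ℝ) ^ 2)⁻¹ :=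
        (Finset.mul_sum _ _ _).symm
    _ ≤ (Module.finrank ℚ K : ℝ) * ∑' m : ℕ, ((m : ℝ) ^ 2)⁻¹ := by
        apply mul_le_mul_of_nonneg_left _ (Nat.cast_nonneg _)
        exact hsum.sum_le_tsum _ (fun _ _ => by positivity)

theorem inv_one_sub_le_exp {x : ℝ} (hx0 : 0 ≤ x) (hx : x ≤ 1 / 2) :
    (1 - x)⁻¹ ≤ Real.exp (2 * x) := by
  have h1 : (1 - x)⁻¹ ≤ 1 + 2 * x := by
    rw [inv_le_iff_one_le_mul₀ (by linarith)]
    nlinarith
  have h2 := Real.add_one_le_exp (2 * x)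
  linarith

theorem prod_deg2_le (T : Finset (HeightOneSpectrum (𝓞 K)))
    (hT : ∀ v ∈ T, ¬ (Ideal.absNorm v.asIdeal).Prime) {s : ℝ} (hs : 1 ≤ s) :
    ∏ v ∈ T, (1 - normPow s (toI0 v))⁻¹ ≤
      Real.exp (2 * ((Module.finrank ℚ K : ℝ) * ∑' m : ℕ, ((m : ℝ) ^ 2)⁻¹)) := by
  calc ∏ v ∈ T, (1 - normPow s (toI0 v))⁻¹
      ≤ ∏ v ∈ T, Real.exp (2 * normPow s (toI0 v)) := by
        apply Finset.prod_le_prod
        · intro v _
          have := normPow_prime_le_half hs v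
          exact inv_nonneg.mpr (by linarith)
        · intro v _
          exact inv_one_sub_le_exp (normPow_pos s _).le (normPow_prime_le_half hs v)
    _ = Real.exp (∑ v ∈ T, 2 * normPow s (toI0 v)) := (Real.exp_sum _ _).symm
    _ ≤ _ := by
        apply Real.exp_le_exp.mpr
        rw [← Finset.mul_sum]
        exact mul_le_mul_of_nonneg_left (sum_deg2_le T hT hs) (by norm_num)

/-- Real Euler product of the zeta function. -/
theorem hasProd_zetaR {s : ℝ} (hs : 1 < s) :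
    HasProd (fun v : HeightOneSpectrum (𝓞 K) => (1 - normPow s (toI0 v))⁻¹) (zetaR K s) :=
  hasProd_ideal (normPow s) (summable_norm_normPow hs)

theorem zetaR_anti {s t : ℝ} (hs : 1 < s) (hst : s ≤ t) : zetaR K t ≤ zetaR K s :=
  (summable_normPow (lt_of_lt_of_le hs hst)).tsum_le_tsum (fun I => normPow_anti hst I)
    (summable_normPow hs)

theorem normPow_two_mul (s : ℝ) (I : (Ideal (𝓞 K))⁰) : normPow (2 * s) I = normPow s I ^ 2 := by
  rw [normPow_apply, normPow_apply, ← Real.rpow_natCast, ← Real.rpow_mul (Nat.cast_nonneg _)]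
  congr 1
  push_cast
  ring

/-- Piece (A): the degree one primes outside a finite set carry the mass of zeta. -/
theorem goodMass (K : Type*) [Field K] [NumberField K] : H34.GoodMass K := by
  intro Bad
  classical
  set C₁ : ℝ := Real.exp (2 * ((Module.finrank ℚ K : ℝ) * ∑' m : ℕ, ((m : ℝ) ^ 2)⁻¹)) with hC₁
  have hC₁pos : 0 < C₁ := Real.exp_pos _
  have hz2 : 0 < zetaR K 2 := zetaR_pos (by norm_num)
  refine ⟨2 * (2 : ℝ) ^ Bad.card * C₁ * zetaR K 2, by positivity, fun s hs1 hs2 => ?_⟩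
  have hs1' : (1 : ℝ) ≤ s := hs1.le
  have hz : 0 < zetaR K s := zetaR_pos hs1
  -- a finite partial product capturing half of zeta
  have hprod : Tendsto (fun T : Finset (HeightOneSpectrum (𝓞 K)) =>
      ∏ v ∈ T, (1 - normPow s (toI0 v))⁻¹) atTop (𝓝 (zetaR K s)) := hasProd_zetaR hs1
  have hev := hprod.eventually (lt_mem_nhds (show zetaR K s / 2 < zetaR K s by linarith))
  obtain ⟨T₀, hT₀⟩ := hev.exists
  -- the three parts
  set T := T₀.filter (fun v => (Ideal.absNorm v.asIdeal).Prime ∧ v ∉ Bad) with hTdef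
  set T₁ := T₀.filter (fun v => ¬ (Ideal.absNorm v.asIdeal).Prime) with hT₁def
  set T₂ := T₀.filter (fun v => (Ideal.absNorm v.asIdeal).Prime ∧ v ∈ Bad) with hT₂def
  have hfac : ∀ v : HeightOneSpectrum (𝓞 K), 0 < (1 - normPow s (toI0 v))⁻¹ := by
    intro v
    have := normPow_prime_le_half hs1' v
    exact inv_pos.mpr (by linarith)
  have hsplit : ∏ v ∈ T₀, (1 - normPow s (toI0 v))⁻¹ =
      (∏ v ∈ T, (1 - normPow s (toI0 v))⁻¹) * (∏ v ∈ T₂, (1 - normPow s (toI0 v))⁻¹) *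
        (∏ v ∈ T₁, (1 - normPow s (toI0 v))⁻¹) := by
    rw [← Finset.prod_filter_mul_prod_filter_not T₀ (fun v => (Ideal.absNorm v.asIdeal).Prime)]
    congr 1
    rw [← Finset.prod_filter_mul_prod_filter_not
      (T₀.filter (fun v => (Ideal.absNorm v.asIdeal).Prime)) (fun v => v ∉ Bad)]
    congr 1
    · apply Finset.prod_congr _ (fun _ _ => rfl)
      ext v
      simp only [Finset.mem_filter, hTdef]
      tauto
    · apply Finset.prod_congr _ (fun _ _ => rfl)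
      ext v
      simp only [Finset.mem_filter, hT₂def, not_not]
      tauto
  have hb1 : ∏ v ∈ T₁, (1 - normPow s (toI0 v))⁻¹ ≤ C₁ :=
    prod_deg2_le T₁ (fun v hv => (Finset.mem_filter.mp hv).2) hs1'
  have hb2 : ∏ v ∈ T₂, (1 - normPow s (toI0 v))⁻¹ ≤ (2 : ℝ) ^ Bad.card := by
    have hcard : T₂.card ≤ Bad.card :=
      Finset.card_le_card (fun v hv => (Finset.mem_filter.mp hv).2.2)
    calc ∏ v ∈ T₂, (1 - normPow s (toI0 v))⁻¹ ≤ ∏ _v ∈ T₂, (2 : ℝ) := by
          apply Finset.prod_le_prod (fun v _ => (hfac v).le)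
          intro v _
          have := normPow_prime_le_half hs1' v
          rw [inv_le_comm₀ (by linarith) (by norm_num)]
          linarith
      _ = (2 : ℝ) ^ T₂.card := Finset.prod_const _
      _ ≤ (2 : ℝ) ^ Bad.card := pow_le_pow_right₀ (by norm_num) hcard
  have hb3 : ∏ v ∈ T, (1 - normPow s (toI0 v))⁻¹ ≤
      (∏ v ∈ T, (1 + H34.pN s v)) * zetaR K 2 := by
    have hfacT : ∀ v ∈ T, (1 - normPow s (toI0 v))⁻¹ =
        (1 + H34.pN s v) * (1 - normPow (2 * s) (toI0 v))⁻¹ := by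
      intro v _
      rw [normPow_two_mul, pN_eq]
      have h1 := normPow_prime_le_half hs1' v
      have h0 := normPow_pos s (toI0 v)
      have hne : (1 - normPow s (toI0 v)) ≠ 0 := by linarith
      have hne2 : (1 - normPow s (toI0 v) ^ 2) ≠ 0 := by nlinarith
      field_simp
      ring
    rw [Finset.prod_congr rfl hfacT, Finset.prod_mul_distrib]
    apply mul_le_mul_of_nonneg_left _ (Finset.prod_nonneg fun v _ => by
      have := normPow_pos s (toI0 v)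
      rw [pN_eq]
      linarith)
    have h2s : (1 : ℝ) < 2 * s := by linarith
    have hge : ∀ v : HeightOneSpectrum (𝓞 K), 1 ≤ (1 - normPow (2 * s) (toI0 v))⁻¹ := by
      intro v
      have h1 := normPow_prime_le_half (by linarith : (1 : ℝ) ≤ 2 * s) v
      have h0 := normPow_pos (2 * s) (toI0 v)
      exact (one_le_inv₀ (by linarith)).mpr (by linarith)
    exact (prod_le_of_hasProd (hasProd_zetaR h2s) hge T).trans
      (zetaR_anti (by norm_num) (by linarith))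
  refine ⟨T, fun v hv => (Finset.mem_filter.mp hv).2, ?_⟩
  rw [zetaI_eq_zetaR]
  have hpT : 0 ≤ ∏ v ∈ T, (1 + H34.pN s v) := Finset.prod_nonneg fun v _ => by
    have := normPow_pos s (toI0 v)
    rw [pN_eq]
    linarith
  have hpT0 : 0 ≤ ∏ v ∈ T, (1 - normPow s (toI0 v))⁻¹ :=
    Finset.prod_nonneg fun v _ => (hfac v).le
  have hpT2 : 0 ≤ ∏ v ∈ T₂, (1 - normPow s (toI0 v))⁻¹ :=
    Finset.prod_nonneg fun v _ => (hfac v).le
  have hpT1 : 0 ≤ ∏ v ∈ T₁, (1 - normPow s (toI0 v))⁻¹ :=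
    Finset.prod_nonneg fun v _ => (hfac v).le
  have hmain : ∏ v ∈ T₀, (1 - normPow s (toI0 v))⁻¹ ≤
      ((∏ v ∈ T, (1 + H34.pN s v)) * zetaR K 2) * (2 : ℝ) ^ Bad.card * C₁ := by
    rw [hsplit]
    apply mul_le_mul _ hb1 hpT1 (by positivity)
    exact mul_le_mul hb3 hb2 hpT2 (by positivity)
  have : zetaR K s < 2 * ∏ v ∈ T₀, (1 - normPow s (toI0 v))⁻¹ := by linarith
  calc zetaR K s ≤ 2 * ∏ v ∈ T₀, (1 - normPow s (toI0 v))⁻¹ := this.le
    _ ≤ 2 * (((∏ v ∈ T, (1 + H34.pN s v)) * zetaR K 2) * (2 : ℝ) ^ Bad.card * C₁) := by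
        linarith
    _ = 2 * (2 : ℝ) ^ Bad.card * C₁ * zetaR K 2 * ∏ v ∈ T, (1 + H34.pN s v) := by ring

end Fermat.Agent.S14.H163
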